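import Mathlib
import Fermat.Agent.S36.AuxNew2.Main

/-!
# Program Q (S36), leaf (AUX-NEW²) : the auxiliary level for the fixed-kill box (prefix `s36e_`)

`s36e_killBox_of_aux` (`S36/AuxNew2/Main.lean`) for the two small primes, and the reduction of the
whole fixed-kill box (the body of `S36asmKillBox lam`, `S35/Asm.lean`) to the levels where the
chart `h_a`, `a = 5 - q`, exists : `q = 2 → 3 ∣ M'`, `q = 3 → 2 ∣ M'`.
-/

set_option autoImplicit false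
set_option linter.unusedSectionVars false
set_option linter.unusedVariables false
set_option synthInstance.maxHeartbeats 400000
set_option linter.style.haveILetI false

noncomputable section

namespace Fermat.Agent.G

open ModularCurve AlgebraicCurve IntermediateField Fermat.Agent.S24

local notation "Qb" => AlgebraicClosure ℚ

/-- the fixed-kill box for `q = 2` from level `(M * 3) * 2` -/
theorem s36e_killBox_two {M : ℕ} [NeZero M] (h2 : 2 ∣ M) (h3 : ¬ 3 ∣ M)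
    (lam : ℕ) (A : ValuationSubring Qb) (c' : ℕ)
    (hbig : ∀ y : JZero (M * 3 * 2), y ∈ s35asmNewAt (M * 3) 2 → (∃ n : ℕ, lam ^ n • y = 0) →
      (∀ σ ∈ A.inertiaSubgroupIn ℚ, σ • y = y) → c' • y = 0)
    (x : JZero (M * 2)) (hx : x ∈ s35asmNewAt M 2) (hxt : ∃ n : ℕ, lam ^ n • x = 0)
    (hfix : ∀ σ ∈ A.inertiaSubgroupIn ℚ, σ • x = x) : ((3 + 1) * c') • x = 0 := by
  refine s36e_killBox_of_aux Nat.prime_two Nat.prime_three h2 ?_ lam A c' hbig x hx hxt hfix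
  intro h
  rcases (Nat.Prime.dvd_mul Nat.prime_three).mp h with h' | h'
  · exact h3 h'
  · omega

/-- the fixed-kill box for `q = 3` from level `(M * 2) * 3` -/
theorem s36e_killBox_three {M : ℕ} [NeZero M] (h3 : 3 ∣ M) (h2 : ¬ 2 ∣ M)
    (lam : ℕ) (A : ValuationSubring Qb) (c' : ℕ)
    (hbig : ∀ y : JZero (M * 2 * 3), y ∈ s35asmNewAt (M * 2) 3 → (∃ n : ℕ, lam ^ n • y = 0) →
      (∀ σ ∈ A.inertiaSubgroupIn ℚ, σ • y = y) → c' • y = 0)
    (x : JZero (M * 3)) (hx : x ∈ s35asmNewAt M 3) (hxt : ∃ n : ℕ, lam ^ n • x = 0)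
    (hfix : ∀ σ ∈ A.inertiaSubgroupIn ℚ, σ • x = x) : ((2 + 1) * c') • x = 0 := by
  refine s36e_killBox_of_aux Nat.prime_three Nat.prime_two h3 ?_ lam A c' hbig x hx hxt hfix
  intro h
  rcases (Nat.Prime.dvd_mul Nat.prime_two).mp h with h' | h'
  · exact h2 h'
  · omega

/-- REDUCTION OF THE FIXED-KILL BOX TO THE LEVELS WITH A CHART `h_a` : the body of
`S36asmKillBox lam` follows from the same statement restricted to `(M', q)` with
`q = 2 → 3 ∣ M'` and `q = 3 → 2 ∣ M'`. -/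
theorem s36e_killBox_reduce (lam : ℕ)
    (hbig : ∀ (M' q : ℕ) [NeZero M'] [NeZero q], q.Prime → q ∣ M' → ¬ q ^ 2 ∣ M' → q ≠ lam →
      (q = 2 → 3 ∣ M') → (q = 3 → 2 ∣ M') →
      ∃ A : ValuationSubring Qb, A.LiesOverPrime q ∧ ∃ c : ℕ, c ≠ 0 ∧
        ∀ x : JZero (M' * q), x ∈ s35asmNewAt M' q → (∃ n : ℕ, lam ^ n • x = 0) →
          (∀ σ ∈ A.inertiaSubgroupIn ℚ, σ • x = x) → c • x = 0) :
    ∀ (M' q : ℕ) [NeZero M'] [NeZero q], q.Prime → q ∣ M' → ¬ q ^ 2 ∣ M' → q ≠ lam →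
      ∃ A : ValuationSubring Qb, A.LiesOverPrime q ∧ ∃ c : ℕ, c ≠ 0 ∧
        ∀ x : JZero (M' * q), x ∈ s35asmNewAt M' q → (∃ n : ℕ, lam ^ n • x = 0) →
          (∀ σ ∈ A.inertiaSubgroupIn ℚ, σ • x = x) → c • x = 0 := by
  intro M' q _ _ hq hqM hq2M hqlam
  by_cases hc2 : q = 2 ∧ ¬ 3 ∣ M'
  · obtain ⟨rfl, h3⟩ := hc2
    have h4 : ¬ 2 ^ 2 ∣ M' * 3 := fun h =>
      hq2M ((Nat.Coprime.dvd_of_dvd_mul_right (by norm_num) h))
    obtain ⟨A, hA, c', hc', hkill⟩ := hbig (M' * 3) 2 hq (hqM.mul_right 3) h4 hqlam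
      (fun _ => dvd_mul_left 3 M') (fun h => absurd h (by norm_num))
    exact ⟨A, hA, (3 + 1) * c', mul_ne_zero (by norm_num) hc',
      fun x hx hxt hfix => s36e_killBox_two hqM h3 lam A c' hkill x hx hxt hfix⟩
  by_cases hc3 : q = 3 ∧ ¬ 2 ∣ M'
  · obtain ⟨rfl, h2⟩ := hc3
    have h9 : ¬ 3 ^ 2 ∣ M' * 2 := fun h =>
      hq2M ((Nat.Coprime.dvd_of_dvd_mul_right (by norm_num) h))
    obtain ⟨A, hA, c', hc', hkill⟩ := hbig (M' * 2) 3 hq (hqM.mul_right 2) h9 hqlam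
      (fun h => absurd h (by norm_num)) (fun _ => dvd_mul_left 2 M')
    exact ⟨A, hA, (2 + 1) * c', mul_ne_zero (by norm_num) hc',
      fun x hx hxt hfix => s36e_killBox_three hqM h2 lam A c' hkill x hx hxt hfix⟩
  · refine hbig M' q hq hqM hq2M hqlam (fun h => ?_) (fun h => ?_)
    · by_contra h3
      exact hc2 ⟨h, h3⟩
    · by_contra h2
      exact hc3 ⟨h, h2⟩

/-- REDUCTION OF THE FIXED-KILL BOX TO LEVELS DIVISIBLE BY AN AUXILIARY PRIME WITH A PROPERTY `P`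
(any property satisfied by arbitrarily large primes) : the body of `S36asmKillBox lam` follows from
the same statement restricted to the `(M', q)` for which some prime `r ≠ q` with `P r` divides
`M'` (and `r ≠ lam`). -/
theorem s36e_killBox_reduce_of (P : ℕ → Prop) (hP : ∀ n : ℕ, ∃ r > n, r.Prime ∧ P r) (lam : ℕ)
    (hbig : ∀ (M' q : ℕ) [NeZero M'] [NeZero q], q.Prime → q ∣ M' → ¬ q ^ 2 ∣ M' → q ≠ lam →
      (∃ r : ℕ, r.Prime ∧ r ∣ M' ∧ r ≠ q ∧ r ≠ lam ∧ P r) →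
      ∃ A : ValuationSubring Qb, A.LiesOverPrime q ∧ ∃ c : ℕ, c ≠ 0 ∧
        ∀ x : JZero (M' * q), x ∈ s35asmNewAt M' q → (∃ n : ℕ, lam ^ n • x = 0) →
          (∀ σ ∈ A.inertiaSubgroupIn ℚ, σ • x = x) → c • x = 0) :
    ∀ (M' q : ℕ) [NeZero M'] [NeZero q], q.Prime → q ∣ M' → ¬ q ^ 2 ∣ M' → q ≠ lam →
      ∃ A : ValuationSubring Qb, A.LiesOverPrime q ∧ ∃ c : ℕ, c ≠ 0 ∧
        ∀ x : JZero (M' * q), x ∈ s35asmNewAt M' q → (∃ n : ℕ, lam ^ n • x = 0) →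
          (∀ σ ∈ A.inertiaSubgroupIn ℚ, σ • x = x) → c • x = 0 := by
  intro M' q _ _ hq hqM hq2M hqlam
  obtain ⟨r, hrgt', hr, hPr⟩ := hP (M' * q + lam)
  have hrgt : M' * q < r := by omega
  have hrlam : r ≠ lam := by omega
  have hpos : 0 < M' * q := Nat.pos_of_ne_zero (mul_ne_zero (NeZero.ne M') (NeZero.ne q))
  have hrM : ¬ r ∣ M' * q := Nat.not_dvd_of_pos_of_lt hpos hrgt
  have hrq : r ≠ q := fun h => hrM (h ▸ dvd_mul_left r M')
  haveI : NeZero r := ⟨hr.ne_zero⟩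
  have hcop : (q ^ 2).Coprime r := Nat.Coprime.pow_left 2 ((Nat.coprime_primes hq hr).2 hrq.symm)
  have hq2Mr : ¬ q ^ 2 ∣ M' * r := fun h => hq2M (hcop.dvd_of_dvd_mul_right h)
  obtain ⟨A, hA, c', hc', hkill⟩ := hbig (M' * r) q hq (hqM.mul_right r) hq2Mr hqlam
    ⟨r, hr, dvd_mul_left r M', hrq, hrlam, hPr⟩
  exact ⟨A, hA, (r + 1) * c', mul_ne_zero (Nat.succ_ne_zero r) hc',
    fun x hx hxt hfix => s36e_killBox_of_aux hq hr hqM hrM lam A c' hkill x hx hxt hfix⟩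

/-- (AUX for NOELL) REDUCTION OF THE FIXED-KILL BOX TO LEVELS WITHOUT ELLIPTIC POINTS : it suffices
to treat the `(M', q)` for which some prime `r ≡ 11 (mod 12)`, `r ≠ q`, `r ≠ lam`, divides `M'`
(Dirichlet's theorem on primes in arithmetic progressions). -/
theorem s36e_killBox_reduce_noell (lam : ℕ)
    (hbig : ∀ (M' q : ℕ) [NeZero M'] [NeZero q], q.Prime → q ∣ M' → ¬ q ^ 2 ∣ M' → q ≠ lam →
      (∃ r : ℕ, r.Prime ∧ r ∣ M' ∧ r ≠ q ∧ r ≠ lam ∧ r % 12 = 11) →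
      ∃ A : ValuationSubring Qb, A.LiesOverPrime q ∧ ∃ c : ℕ, c ≠ 0 ∧
        ∀ x : JZero (M' * q), x ∈ s35asmNewAt M' q → (∃ n : ℕ, lam ^ n • x = 0) →
          (∀ σ ∈ A.inertiaSubgroupIn ℚ, σ • x = x) → c • x = 0) :
    ∀ (M' q : ℕ) [NeZero M'] [NeZero q], q.Prime → q ∣ M' → ¬ q ^ 2 ∣ M' → q ≠ lam →
      ∃ A : ValuationSubring Qb, A.LiesOverPrime q ∧ ∃ c : ℕ, c ≠ 0 ∧
        ∀ x : JZero (M' * q), x ∈ s35asmNewAt M' q → (∃ n : ℕ, lam ^ n • x = 0) →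
          (∀ σ ∈ A.inertiaSubgroupIn ℚ, σ • x = x) → c • x = 0 := by
  refine s36e_killBox_reduce_of (fun r => r % 12 = 11) (fun n => ?_) lam hbig
  obtain ⟨r, hrgt, hr, hmod⟩ :=
    Nat.forall_exists_prime_gt_and_modEq n (q := 12) (a := 11) (by norm_num) (by norm_num)
  exact ⟨r, hrgt, hr, hmod⟩

end Fermat.Agent.G
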